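import Fermat.Agent.S41.Toric.Delta
import Fermat.Agent.S33.Cover.Reg

/-!
# S41 / Toric / Mor : functoriality of the node invariant for a morphism of pairs of reductions

Small level: `T x X σ`, `h : PairHyp T x X σ`; big level: `T' x' X' σ'`, `h' : PairHyp T' x' X' σ'`.
`PairMor` : an embedding `φ : F → F'` compatible with the reductions (inducing `φb : Fb → Fb'` on BOTH
components), with the Frobenius on places, and such that the coordinate `φ x` is a quotient `G₁ / G` of two functions which are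
regular for the coordinate `x'`, `G` not vanishing at the nodes  (`G = 1` if `φ x = x'`).

* `PairMor.node` : a node of the big level restricts to a node of the small level;
* `PairMor.delta_comp` : `δ_{φ f} (P') = δ_f (P'|_Fb)`;
* `main` : two morphisms `φ₁, φ₂` and a relation `φ₁ f = (φ₂ f) ^ s * w ^ m` (`s = ± 1`).
-/

set_option autoImplicit false
set_option linter.unusedSectionVars false
set_option linter.style.haveILetI false

noncomputable section

namespace Fermat.Agent.S41.Toric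

open AlgebraicCurve Fermat.Agent.Lib.RR Fermat.Agent.GAL.RED Fermat.Agent.DR.Abs
  Fermat.Agent.DR.Nodal Fermat.Agent.S33.Cover

section restrict

variable {k Fb Fb' : Type*} [Field k] [Field Fb] [Field Fb'] [Algebra k Fb] [Algebra k Fb']

theorem ramificationIndexAlong_pos (φb : Fb →ₐ[k] Fb') (hφb : φb.toRingHom.IsIntegral)
    (P' : Place k Fb') : 0 < Place.ramificationIndexAlong φb P' := by
  let _ := algebraAlong φb
  have := isScalarTower_along φb
  have := isIntegral_along φb hφb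
  exact P'.ramificationIndex_pos (F := Fb)

theorem ord_map_nonneg_iff (φb : Fb →ₐ[k] Fb') (hφb : φb.toRingHom.IsIntegral)
    (P' : Place k Fb') (u : Fb) : 0 ≤ P'.ord (φb u) ↔ 0 ≤ (P'.restrictAlong φb hφb).ord u := by
  rw [Place.ord_restrictAlong φb hφb]
  have h := ramificationIndexAlong_pos φb hφb P'
  have h' : (0 : ℤ) < (Place.ramificationIndexAlong φb P' : ℤ) := by exact_mod_cast h
  constructor
  · intro h1
    by_contra h2
    push Not at h2
    have := mul_neg_of_pos_of_neg h' h2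
    omega
  · intro h1
    positivity

theorem ord_map_pos_iff (φb : Fb →ₐ[k] Fb') (hφb : φb.toRingHom.IsIntegral)
    (P' : Place k Fb') (u : Fb) : 0 < P'.ord (φb u) ↔ 0 < (P'.restrictAlong φb hφb).ord u := by
  rw [Place.ord_restrictAlong φb hφb]
  have h := ramificationIndexAlong_pos φb hφb P'
  have h' : (0 : ℤ) < (Place.ramificationIndexAlong φb P' : ℤ) := by exact_mod_cast h
  constructor
  · intro h1
    by_contra h2
    push Not at h2
    have := mul_nonpos_of_nonneg_of_nonpos h'.le h2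
    omega
  · intro h1
    positivity

variable [IsFF k Fb] [IsFF k Fb'] [IsAlgClosed k]

/-- values are compatible with the restriction of places. -/
theorem ev_map (φb : Fb →ₐ[k] Fb') (hφb : φb.toRingHom.IsIntegral) (P' : Place k Fb') {u : Fb}
    (hu : 0 ≤ (P'.restrictAlong φb hφb).ord u) :
    DR.Abs.ev P' (φb u) = DR.Abs.ev (P'.restrictAlong φb hφb) u := by
  apply DR.Abs.ev_eq_of
  rcases DR.Abs.ev_spec _ hu with h | h
  · left
    conv_lhs => rw [h]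
    exact φb.commutes _
  · right
    rw [← φb.commutes, ← map_sub]
    exact (ord_map_pos_iff φb hφb P' _).2 h

end restrict

variable {K F F' k Fb Fb' : Type*} [Field K] [Field F] [Field F'] [Algebra K F] [Algebra K F']
  [Field k] [Field Fb] [Field Fb'] [Algebra k Fb] [Algebra k Fb']

/-- A morphism of pairs of reductions. -/
structure PairMor [HasPrincipalDivisors K F'] (T : MultiRed K F k (fun _ : Fin 2 => Fb)) (x : F)
    (X : Frob k Fb) (T' : MultiRed K F' k (fun _ : Fin 2 => Fb')) (x' : F') (X' : Frob k Fb')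
    (S' : Set (Place k Fb')) (φ : F →ₐ[K] F') (φb : Fb →ₐ[k] Fb') : Prop where
  int : φ.toRingHom.IsIntegral
  intb : φb.toRingHom.IsIntegral
  mem : ∀ i, ∀ y ∈ (T.R i).O, φ y ∈ (T'.R i).O
  red : ∀ i, ∀ y ∈ (T.R i).O, (T'.R i).red (φ y) = φb ((T.R i).red y)
  frob : ∀ P' : Place k Fb', (X'.Φ P').restrictAlong φb intb = X.Φ (P'.restrictAlong φb intb)
  coord : ∃ G : F', IsReg T' x' G ∧ IsReg T' x' (φ x * G) ∧
    ∀ P' ∈ S', DR.Abs.ev P' ((T'.R 1).red G) ≠ 0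

variable [IsFF K F] [IsFF K F'] [IsAlgClosed K] [IsFF k Fb] [IsFF k Fb'] [IsAlgClosed k]

/-- transfer of regularity: `u ∈ L(a (x)_∞)`, `G` and `φ x * G` regular off the poles of `x'` ⟹ `φ u * G ^ n` is regular off
the poles of `x'` (`n ≥ a`). -/
theorem regular_map (φ : F →ₐ[K] F') (hφ : φ.toRingHom.IsIntegral) {x u : F} {x' G : F'} {a n : ℕ}
    (han : a ≤ n) (hu : u ∈ riemannRochSpace (a • poleDiv (K := K) x))
    (hG : ∀ Q : Place K F', 0 ≤ Q.ord x' → 0 ≤ Q.ord G)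
    (hxG : ∀ Q : Place K F', 0 ≤ Q.ord x' → 0 ≤ Q.ord (φ x * G)) :
    ∃ b : ℕ, φ u * G ^ n ∈ riemannRochSpace (b • poleDiv (K := K) x') := by
  rw [Fermat.Agent.S36.Norm.RegNorm_exists_mem_L_poleDiv_iff]
  intro Q hQ
  have hGQ := hG Q hQ
  have hxGQ := hxG Q hQ
  rcases eq_or_ne u 0 with rfl | hu0
  · simp
  rcases eq_or_ne G 0 with rfl | hG0
  · rcases Nat.eq_zero_or_pos n with rfl | hn
    · obtain rfl : a = 0 := by omega
      rw [pow_zero, mul_one, ord_map_nonneg_iff φ hφ]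
      have := (mem_riemannRochSpace_iff.1 hu (Q.restrictAlong φ hφ)).resolve_left hu0
      simpa using this
    · rw [zero_pow hn.ne', mul_zero, Place.ord_zero]
  have h1 := (mem_riemannRochSpace_iff.1 hu (Q.restrictAlong φ hφ)).resolve_left hu0
  rw [Finsupp.smul_apply, poleDiv_apply] at h1
  have he := ramificationIndexAlong_pos φ hφ Q
  have he' : (0 : ℤ) < (Place.ramificationIndexAlong φ Q : ℤ) := by exact_mod_cast he
  have hφu : φ u ≠ 0 := (map_ne_zero _).2 hu0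
  rw [Q.ord_mul hφu (pow_ne_zero n hG0), ord_pow, Place.ord_restrictAlong φ hφ]
  set e : ℤ := (Place.ramificationIndexAlong φ Q : ℤ) with hedef
  set o : ℤ := (Q.restrictAlong φ hφ).ord u with ho
  set ox : ℤ := (Q.restrictAlong φ hφ).ord x with hox
  have han' : (a : ℤ) ≤ n := by exact_mod_cast han
  have ha0 : (0 : ℤ) ≤ a := Int.natCast_nonneg a
  rcases le_or_gt 0 ox with hx | hx
  · rw [max_eq_right (by omega)] at h1
    have h2 : 0 ≤ o := by simpa using h1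
    have : 0 ≤ e * o := by positivity
    have : 0 ≤ (n : ℤ) * Q.ord G := by positivity
    omega
  · have hx0 : x ≠ 0 := by
      rintro rfl
      rw [hox, Place.ord_zero] at hx
      exact lt_irrefl _ hx
    rw [max_eq_left (by omega)] at h1
    have h2 : -((a : ℤ) * (-ox)) ≤ o := by simpa using h1
    rw [Q.ord_mul ((map_ne_zero _).2 hx0) hG0, Place.ord_restrictAlong φ hφ] at hxGQ
    have h3 : -(e * ox) ≤ Q.ord G := by
      have : e * ox + Q.ord G = (Place.ramificationIndexAlong φ Q : ℤ) *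
          (Q.restrictAlong φ hφ).ord x + Q.ord G := rfl
      omega
    have h4 : e * (a * ox) ≤ e * o := by
      apply mul_le_mul_of_nonneg_left _ he'.le
      linarith
    have h5 : (a : ℤ) * (-(e * ox)) ≤ a * Q.ord G := mul_le_mul_of_nonneg_left h3 ha0
    have h6 : (a : ℤ) * Q.ord G ≤ n * Q.ord G := mul_le_mul_of_nonneg_right han' hGQ
    nlinarith

/-! ### the invariant, for a pair -/

/-- the node invariant, pair version: `y₀(Φ P) = δ P * y₁(P)` for all sections `y` and all `P ∈ S`. -/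
def IsDeltaP (T : MultiRed K F k (fun _ : Fin 2 => Fb)) (x : F) (X : Frob k Fb)
    (S : Set (Place k Fb)) (m : ℕ) (f : F) (δ : Place k Fb → k) : Prop :=
  ∀ y, IsSection T x m f y → ∀ P ∈ S,
    DR.Abs.ev (X.Φ P) ((T.R 0).red y) = δ P * DR.Abs.ev P ((T.R 1).red y)

section pair

variable {T : MultiRed K F k (fun _ : Fin 2 => Fb)} {x : F} {X : Frob k Fb} {σ : Fb}

theorem isDeltaP_iff (h : PairHyp T x X σ) {m : ℕ} {f : F} {δ : Place k Fb → k} :
    IsDeltaP T x X h.filt.nodes m f δ ↔ IsDelta T x h.nodeData m f (fun e => δ e.1) :=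
  ⟨fun H y hy e => H y hy e.1 e.2, fun H y hy P hP => H y hy ⟨P, hP⟩⟩

theorem exists_isDeltaP (h : PairHyp T x X σ) {m : ℕ} (hm : (m : k) ≠ 0) {f : F}
    (hf : IsTor T m f) :
    ∃ δ : Place k Fb → k, (∀ P, δ P ^ m = 1) ∧ IsDeltaP T x X h.filt.nodes m f δ := by
  classical
  haveI := h.filt.finite_nodes.fintype
  obtain ⟨a₀, hN⟩ := h.isPreNodal
  obtain ⟨δ, hδ, hd⟩ := exists_isDelta hN hm hf
  refine ⟨fun P => if hP : P ∈ h.filt.nodes then δ ⟨P, hP⟩ else 1, fun P => ?_, ?_⟩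
  · by_cases hP : P ∈ h.filt.nodes
    · simp only [dif_pos hP]
      exact hδ _
    · simp only [dif_neg hP, one_pow]
  · rw [isDeltaP_iff h]
    have : (fun e : ↥h.filt.nodes => if hP : e.1 ∈ h.filt.nodes then δ ⟨e.1, hP⟩ else 1) = δ := by
      funext e
      simp only [dif_pos e.2]
    rw [this]
    exact hd

theorem exists_unit_sectionP (h : PairHyp T x X σ) {m : ℕ} (hm : (m : k) ≠ 0) {f : F}
    (hf : IsTor T m f) :
    ∃ y, IsSection T x m f y ∧ ∀ P ∈ h.filt.nodes,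
      (0 ≤ (X.Φ P).ord ((T.R 0).red y) ∧ DR.Abs.ev (X.Φ P) ((T.R 0).red y) ≠ 0) ∧
      (0 ≤ P.ord ((T.R 1).red y) ∧ DR.Abs.ev P ((T.R 1).red y) ≠ 0) := by
  haveI := h.filt.finite_nodes.fintype
  obtain ⟨a₀, hN⟩ := h.isPreNodal
  obtain ⟨y, hy, hu⟩ := exists_unit_section hN hm hf
  exact ⟨y, hy, fun P hP => hu ⟨P, hP⟩⟩

theorem IsDeltaP.eq_of_section {S : Set (Place k Fb)} {m : ℕ} {f : F} {δ : Place k Fb → k}
    (hδ : IsDeltaP T x X S m f δ) {y : F} (hy : IsSection T x m f y) {P : Place k Fb} (hP : P ∈ S)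
    {d : k} (h2 : DR.Abs.ev P ((T.R 1).red y) ≠ 0)
    (h12 : DR.Abs.ev (X.Φ P) ((T.R 0).red y) = d * DR.Abs.ev P ((T.R 1).red y)) : δ P = d := by
  have h1 := hδ y hy P hP
  rw [h12] at h1
  exact (mul_right_cancel₀ h2 h1).symm

theorem IsDeltaP.eqOn (h : PairHyp T x X σ) {m : ℕ} (hm : (m : k) ≠ 0) {f : F} (hf : IsTor T m f)
    {δ δ' : Place k Fb → k} (hδ : IsDeltaP T x X h.filt.nodes m f δ)
    (hδ' : IsDeltaP T x X h.filt.nodes m f δ') : ∀ P ∈ h.filt.nodes, δ P = δ' P := by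
  obtain ⟨y, hy, hu⟩ := exists_unit_sectionP h hm hf
  exact fun P hP => hδ.eq_of_section hy hP (hu P hP).2.2 (hδ' y hy P hP)

theorem IsDeltaP.mul (h : PairHyp T x X σ) {m : ℕ} (hm : (m : k) ≠ 0) {f g : F} (hf : IsTor T m f)
    (hg : IsTor T m g) {δ γ : Place k Fb → k} (hδ : IsDeltaP T x X h.filt.nodes m f δ)
    (hγ : IsDeltaP T x X h.filt.nodes m g γ) : IsDeltaP T x X h.filt.nodes m (f * g) (δ * γ) := by
  haveI := h.filt.finite_nodes.fintype
  obtain ⟨a₀, hN⟩ := h.isPreNodal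
  rw [isDeltaP_iff h] at *
  exact IsDelta.mul hN hm hf hg hδ hγ

theorem IsDeltaP.inv (h : PairHyp T x X σ) {m : ℕ} (hm : (m : k) ≠ 0) {f : F} (hf : IsTor T m f)
    {δ : Place k Fb → k} (hδ : IsDeltaP T x X h.filt.nodes m f δ) :
    IsDeltaP T x X h.filt.nodes m f⁻¹ δ⁻¹ := by
  haveI := h.filt.finite_nodes.fintype
  obtain ⟨a₀, hN⟩ := h.isPreNodal
  rw [isDeltaP_iff h] at *
  exact IsDelta.inv hN hm hf hδ

theorem isDeltaP_pow (h : PairHyp T x X σ) {m : ℕ} (hm : 0 < m) {w : F} (hw : T.red (w ^ m) = 1) :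
    ∃ κ : k, κ ^ m = 1 ∧ IsDeltaP T x X h.filt.nodes m (w ^ m) (fun _ => κ) := by
  haveI := h.filt.finite_nodes.fintype
  obtain ⟨a₀, hN⟩ := h.isPreNodal
  obtain ⟨c, hc, hd⟩ := isDelta_pow hN hm hw
  refine ⟨c 1 * (c 0)⁻¹, by rw [mul_pow, inv_pow, hc, hc, inv_one, one_mul], ?_⟩
  rw [isDeltaP_iff h]
  exact hd

theorem isPow_of_isDeltaP (h : PairHyp T x X σ) {m : ℕ} (hm : (m : k) ≠ 0) {f : F}
    (hf : IsTor T m f) {δ : Place k Fb → k} (hδ : IsDeltaP T x X h.filt.nodes m f δ) {κ : k}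
    (hκ : κ ≠ 0) (hconst : ∀ P ∈ h.filt.nodes, δ P = κ) : ∃ w : F, f = w ^ m := by
  haveI := h.filt.finite_nodes.fintype
  obtain ⟨a₀, hN⟩ := h.isPreNodal
  rw [isDeltaP_iff h] at hδ
  refine isPow_of_isDelta hN hm hf hδ ![κ, 1] ?_ (fun e => ?_)
  · rw [Fin.forall_fin_two]
    exact ⟨hκ, one_ne_zero⟩
  · show δ e.1 * (![κ, 1] : Fin 2 → k) 1 = (![κ, 1] : Fin 2 → k) 0
    rw [hconst e.1 e.2]
    simp

/-- regular functions are glued at the nodes, and regular there. -/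
theorem IsReg.gluedP (h : PairHyp T x X σ) {G : F} (hG : IsReg T x G) :
    ∀ P ∈ h.filt.nodes, 0 ≤ (X.Φ P).ord ((T.R 0).red G) ∧ 0 ≤ P.ord ((T.R 1).red G) ∧
      DR.Abs.ev (X.Φ P) ((T.R 0).red G) = DR.Abs.ev P ((T.R 1).red G) := by
  haveI := h.filt.finite_nodes.fintype
  obtain ⟨a₀, hN⟩ := h.isPreNodal
  obtain ⟨hGO, a, ha⟩ := hG
  have hsec : IsSection T x 1 1 G := ⟨hGO, a, by rwa [pow_one, mul_one]⟩
  intro P hP
  have h1 := glued_of_isSection_one hN one_pos hsec ⟨P, hP⟩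
  refine ⟨hsec.regular hN one_pos T.red_one 0 (X.Φ P) (hN.unit₁ ⟨P, hP⟩).ge,
    hsec.regular hN one_pos T.red_one 1 P (hN.unit₂ ⟨P, hP⟩).ge, ?_⟩
  rw [Pi.one_apply, one_mul] at h1
  exact h1

end pair

/-! ### morphisms -/

namespace PairMor

variable {T : MultiRed K F k (fun _ : Fin 2 => Fb)} {x : F} {X : Frob k Fb} {σ : Fb}
  {T' : MultiRed K F' k (fun _ : Fin 2 => Fb')} {x' : F'} {X' : Frob k Fb'} {σ' : Fb'}
  {S' : Set (Place k Fb')} {φ : F →ₐ[K] F'} {φb : Fb →ₐ[k] Fb'}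

theorem mem_O (M : PairMor T x X T' x' X' S' φ φb) {y : F} (hy : y ∈ T.O) : φ y ∈ T'.O :=
  fun i => M.mem i y (hy i)

theorem isTor (M : PairMor T x X T' x' X' S' φ φb) {m : ℕ} {f : F} (hf : IsTor T m f) :
    IsTor T' m (φ f) :=
  ⟨fun Q => by
    rw [Place.ord_restrictAlong φ M.int]
    exact Dvd.dvd.mul_left (hf.dvd _) _, by
    funext i
    rw [MultiRed.red_apply, M.red i f (hf.mem_O i)]
    have := congrFun hf.red i
    rw [MultiRed.red_apply] at this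
    rw [this]
    exact map_one φb⟩

theorem exists_section_map (M : PairMor T x X T' x' X' S' φ φb) {G : F'} (hG : IsReg T' x' G)
    (hxG : IsReg T' x' (φ x * G)) {m : ℕ} (hm : 0 < m) {f y : F} (hy : IsSection T x m f y) :
    ∃ n : ℕ, IsSection T' x' m (φ f) (φ y * G ^ n) := by
  obtain ⟨hyO, a, ha⟩ := hy
  refine ⟨a, T'.O.mul_mem (M.mem_O hyO) (T'.O.pow_mem hG.1 a), ?_⟩
  have e : (φ y * G ^ a) ^ m * φ f = φ (y ^ m * f) * G ^ (a * m) := by
    rw [mul_pow, map_mul, map_pow, ← pow_mul]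
    ring
  rw [e]
  exact regular_map φ M.int (Nat.le_mul_of_pos_right a hm) ha ((isReg_iff _ _ _).1 hG).2
    ((isReg_iff _ _ _).1 hxG).2

/-- the values of `φ y * G ^ n` at a node `P'` of the big level. -/
theorem ev_map_mul (h' : PairHyp T' x' X' σ') (M : PairMor T x X T' x' X' h'.filt.nodes φ φb)
    {G : F'} (hG : IsReg T' x' G) {y : F} (hy : y ∈ T.O) (n : ℕ) {P' : Place k Fb'}
    (hP' : P' ∈ h'.filt.nodes)
    (h0 : 0 ≤ (X.Φ (P'.restrictAlong φb M.intb)).ord ((T.R 0).red y))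
    (h1 : 0 ≤ (P'.restrictAlong φb M.intb).ord ((T.R 1).red y)) :
    DR.Abs.ev (X'.Φ P') ((T'.R 0).red (φ y * G ^ n)) =
        DR.Abs.ev (X.Φ (P'.restrictAlong φb M.intb)) ((T.R 0).red y) *
          DR.Abs.ev P' ((T'.R 1).red G) ^ n ∧
      DR.Abs.ev P' ((T'.R 1).red (φ y * G ^ n)) =
        DR.Abs.ev (P'.restrictAlong φb M.intb) ((T.R 1).red y) *
          DR.Abs.ev P' ((T'.R 1).red G) ^ n := by
  obtain ⟨g0, g1, g01⟩ := IsReg.gluedP h' hG P' hP'
  have hpow : ∀ i, G ^ n ∈ (T'.R i).O := fun i => pow_mem (hG.1 i) n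
  constructor
  · rw [(T'.R 0).red_mul (M.mem 0 y (hy 0)) (hpow 0), (T'.R 0).red_pow, M.red 0 y (hy 0)]
    have h0' : 0 ≤ ((X'.Φ P').restrictAlong φb M.intb).ord ((T.R 0).red y) := by
      rw [M.frob]
      exact h0
    rw [DR.Abs.ev_mul _ ((ord_map_nonneg_iff φb M.intb _ _).2 h0')
      (by rw [ord_pow]; positivity), DR.Abs.ev_pow _ g0, ev_map φb M.intb _ h0', M.frob, g01]
  · rw [(T'.R 1).red_mul (M.mem 1 y (hy 1)) (hpow 1), (T'.R 1).red_pow, M.red 1 y (hy 1)]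
    rw [DR.Abs.ev_mul _ ((ord_map_nonneg_iff φb M.intb _ _).2 h1)
      (by rw [ord_pow]; positivity), DR.Abs.ev_pow _ g1, ev_map φb M.intb _ h1]

/-- **A node of the big level restricts to a node of the small level.** -/
theorem node (h : PairHyp T x X σ) (h' : PairHyp T' x' X' σ')
    (M : PairMor T x X T' x' X' h'.filt.nodes φ φb) {P' : Place k Fb'}
    (hP' : P' ∈ h'.filt.nodes) : P'.restrictAlong φb M.intb ∈ h.filt.nodes := by
  obtain ⟨G, hG, hxG, hGne⟩ := M.coord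
  have hfix : X.Φ (X.Φ (P'.restrictAlong φb M.intb)) = P'.restrictAlong φb M.intb := by
    rw [← M.frob, ← M.frob, hP'.2.1]
  have hσ0 : (P'.restrictAlong φb M.intb).ord σ = 0 := h.fix_unit _ hfix
  have hσ1 : (X.Φ (P'.restrictAlong φb M.intb)).ord σ = 0 := h.fix_unit _ (by rw [hfix])
  refine ⟨hσ0.ge, hfix, fun a w hw => ?_⟩
  obtain ⟨y, hyL, hyO, e0, e1⟩ := mem_pairH.1 hw
  have hreg : ∀ (Q : Place k Fb) (i : Fin 2), Q.ord σ = 0 → 0 ≤ Q.ord ((T.R i).red y) := by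
    intro Q i hQ
    refine DR.Abs.ord_nonneg_of_mem_L (h.bound a y hyL hyO i) ?_
    rw [Finsupp.smul_apply, poleDiv_apply, hQ]
    simp
  have hsec : IsSection T x 1 1 y := ⟨hyO, a, by rwa [pow_one, mul_one]⟩
  obtain ⟨n, hn⟩ := M.exists_section_map hG hxG one_pos hsec
  have hreg' : IsReg T' x' (φ y * G ^ n) := by
    obtain ⟨hO, b, hb⟩ := hn
    exact ⟨hO, b, by rwa [pow_one, map_one, mul_one] at hb⟩
  obtain ⟨-, -, hgl⟩ := IsReg.gluedP h' hreg' P' hP'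
  obtain ⟨v0, v1⟩ := M.ev_map_mul h' hG hyO n hP' (hreg _ 0 hσ1) (hreg _ 1 hσ0)
  rw [v0, v1] at hgl
  have := mul_right_cancel₀ (pow_ne_zero n (hGne P' hP')) hgl
  show Lib.PlaceEval.ev (X.Φ (P'.restrictAlong φb M.intb)) w.1 =
    (1 : Place k Fb → k) (P'.restrictAlong φb M.intb) * Lib.PlaceEval.ev (P'.restrictAlong φb M.intb) w.2
  rw [Pi.one_apply, one_mul, ← e0, ← e1, ← abs_ev_eq, ← abs_ev_eq]
  exact this

/-- **Functoriality of the invariant.** -/
theorem delta_comp (h : PairHyp T x X σ) (h' : PairHyp T' x' X' σ')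
    (M : PairMor T x X T' x' X' h'.filt.nodes φ φb) {m : ℕ} (hm : (m : k) ≠ 0) {f : F}
    (hf : IsTor T m f) {δ : Place k Fb → k} (hδ : IsDeltaP T x X h.filt.nodes m f δ)
    {δ' : Place k Fb' → k} (hδ' : IsDeltaP T' x' X' h'.filt.nodes m (φ f) δ') :
    ∀ P' ∈ h'.filt.nodes, δ' P' = δ (P'.restrictAlong φb M.intb) := by
  have hm0 : 0 < m := Nat.pos_of_ne_zero (by rintro rfl; simp at hm)
  obtain ⟨G, hG, hxG, hGne⟩ := M.coord
  obtain ⟨y, hy, hu⟩ := exists_unit_sectionP h hm hf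
  obtain ⟨n, hn⟩ := M.exists_section_map hG hxG hm0 hy
  intro P' hP'
  have hP := M.node h h' hP'
  obtain ⟨⟨r0, -⟩, r1, u1⟩ := hu _ hP
  obtain ⟨v0, v1⟩ := M.ev_map_mul h' hG hy.1 n hP' r0 r1
  refine hδ'.eq_of_section hn hP' ?_ ?_
  · rw [v1]
    exact mul_ne_zero u1 (pow_ne_zero n (hGne P' hP'))
  · rw [v0, v1, hδ y hy _ hP]
    ring

end PairMor

/-- **Output of the abstract part of block TORIC.**  Two morphisms `φ₁, φ₂` from the small level to the big level, `f` toric at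
the small level with `φ₁ f = (φ₂ f) ^ s * w ^ m`, `s = ± 1`. -/
theorem main_abs {T : MultiRed K F k (fun _ : Fin 2 => Fb)} {x : F} {X : Frob k Fb} {σ : Fb}
    {T' : MultiRed K F' k (fun _ : Fin 2 => Fb')} {x' : F'} {X' : Frob k Fb'} {σ' : Fb'}
    {φ₁ φ₂ : F →ₐ[K] F'} {φb₁ φb₂ : Fb →ₐ[k] Fb'}
    (h : PairHyp T x X σ) (h' : PairHyp T' x' X' σ')
    (M₁ : PairMor T x X T' x' X' h'.filt.nodes φ₁ φb₁)
    (M₂ : PairMor T x X T' x' X' h'.filt.nodes φ₂ φb₂) {m : ℕ} (hm : (m : k) ≠ 0) {f : F}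
    (hf : IsTor T m f) {s : ℤ} (hs : s = 1 ∨ s = -1) {w : F'}
    (hrel : φ₁ f = (φ₂ f) ^ s * w ^ m) :
    ∃ (ζ : Place k Fb → k) (κ : k), κ ^ m = 1 ∧ (∀ P, ζ P ^ m = 1) ∧
      (∀ P' ∈ h'.filt.nodes, ζ (P'.restrictAlong φb₁ M₁.intb) =
        κ * ζ (P'.restrictAlong φb₂ M₂.intb) ^ s) ∧
      ((∀ P ∈ h.filt.nodes, ∀ Q ∈ h.filt.nodes, ζ P = ζ Q) → ∃ v : F, f = v ^ m) := by
  have hm0 : 0 < m := Nat.pos_of_ne_zero (by rintro rfl; simp at hm)
  obtain ⟨ζ, hζ, hd⟩ := exists_isDeltaP h hm hf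
  have hζ0 : ∀ P, ζ P ≠ 0 := fun P h0 => by
    have := hζ P
    rw [h0, zero_pow hm0.ne'] at this
    exact zero_ne_one this
  have t₁ := M₁.isTor hf
  have t₂ := M₂.isTor hf
  obtain ⟨δ₁, -, d₁⟩ := exists_isDeltaP h' hm t₁
  obtain ⟨δ₂, -, d₂⟩ := exists_isDeltaP h' hm t₂
  have c₁ := M₁.delta_comp h h' hm hf hd d₁
  have c₂ := M₂.delta_comp h h' hm hf hd d₂
  -- the invariant of `(φ₂ f) ^ s`
  have t₂s : IsTor T' m ((φ₂ f) ^ s) := by
    rcases hs with rfl | rfl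
    · rw [zpow_one]; exact t₂
    · rw [zpow_neg_one]; exact t₂.inv
  have d₂s : IsDeltaP T' x' X' h'.filt.nodes m ((φ₂ f) ^ s) (fun P' => δ₂ P' ^ s) := by
    rcases hs with rfl | rfl
    · simp only [zpow_one]; exact d₂
    · simp only [zpow_neg_one]; exact d₂.inv h' hm t₂
  have hne : (φ₂ f) ^ s ≠ 0 := by
    obtain ⟨a₀, hN⟩ := h'.isPreNodal
    haveI := h'.filt.finite_nodes.fintype
    exact t₂s.ne_zero hN
  have hw : T'.red (w ^ m) = 1 := by
    have e : w ^ m = φ₁ f * ((φ₂ f) ^ s)⁻¹ := by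
      rw [hrel]
      field_simp
    rw [e, T'.red_mul t₁.mem_O t₂s.inv.mem_O, t₁.red, t₂s.inv.red, one_mul]
  obtain ⟨κ, hκ, dκ⟩ := isDeltaP_pow h' hm0 hw
  have tw : IsTor T' m (w ^ m) := ⟨fun P => by
    rw [ord_pow]
    exact dvd_mul_right _ _, hw⟩
  have dprod := d₂s.mul h' hm t₂s tw dκ
  rw [← hrel] at dprod
  have heq := d₁.eqOn h' hm t₁ dprod
  refine ⟨ζ, κ, hκ, hζ, fun P' hP' => ?_, fun hconst => ?_⟩
  · rw [← c₁ P' hP', heq P' hP', Pi.mul_apply, c₂ P' hP', mul_comm]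
  · by_cases hne : h.filt.nodes.Nonempty
    · obtain ⟨P₀, hP₀⟩ := hne
      exact isPow_of_isDeltaP h hm hf hd (hζ0 P₀) (fun P hP => hconst P hP P₀ hP₀)
    · exact isPow_of_isDeltaP h hm hf hd one_ne_zero (fun P hP => absurd ⟨P, hP⟩ hne)

end Fermat.Agent.S41.Toric
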