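import Fermat.Agent.DR.Abs.Final
import Fermat.Agent.DR.Abs.Nodal.Bridge

/-!
# S41 / Toric / Delta : the node invariant `δ_f` of a toric Kummer class (abstract, general nodal reduction)

`h : IsPreNodal T x N a₀`, `m` invertible in `k`, `f ∈ F` with `m ∣ div f` and `T.red f = 1`.
`IsDelta T x N m f δ` : every section `y` (`IsSection T x m f y`) satisfies `y(p₁ e) = δ e * y(p₂ e)`.

* `exists_isDelta`, `IsDelta.unique` : existence (with `δ e ^ m = 1`) and uniqueness;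
* `IsDelta.mul`, `isDelta_one`, `IsDelta.inv` : multiplicativity;
* `isDelta_pow` : the invariant of an `m`-th power is a coboundary;
* `isPow_of_isDelta` : a class whose invariant is a coboundary is trivial.
-/

set_option autoImplicit false
set_option linter.unusedSectionVars false

namespace Fermat.Agent.S41.Toric

open AlgebraicCurve Fermat.Agent.Lib.RR Fermat.Agent.GAL.RED Fermat.Agent.DR.Abs

variable {K F k : Type*} [Field K] [Field F] [Algebra K F] [Field k] {ι : Type*}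
  {Fb : ι → Type*} [∀ i, Field (Fb i)] [∀ i, Algebra k (Fb i)] {E : Type*}

/-- `δ` is the node invariant of `f`. -/
def IsDelta [HasPrincipalDivisors K F] (T : MultiRed K F k Fb) (x : F) (N : NodeData k Fb E) (m : ℕ)
    (f : F) (δ : E → k) : Prop :=
  ∀ y, IsSection T x m f y → ∀ e,
    ev (N.p₁ e) (T.red y (N.i₁ e)) = δ e * ev (N.p₂ e) (T.red y (N.i₂ e))

/-- the standing hypotheses on `f`. -/
structure IsTor [HasPrincipalDivisors K F] (T : MultiRed K F k Fb) (m : ℕ) (f : F) : Prop where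
  dvd : ∀ P : Place K F, (m : ℤ) ∣ P.ord f
  red : T.red f = 1

variable [IsFF K F] [IsAlgClosed K] [∀ i, IsFF k (Fb i)] [IsAlgClosed k] [Fintype ι] [Fintype E]

theorem IsTor.ne_zero {T : MultiRed K F k Fb} {x : F} {N : NodeData k Fb E} {a₀ : ℕ}
    (h : IsPreNodal T x N a₀) {m : ℕ} {f : F} (hf : IsTor T m f) : f ≠ 0 := by
  obtain ⟨i⟩ := h.cart.nonempty
  rintro rfl
  have := hf.red
  rw [T.red_zero] at this
  exact zero_ne_one (congrFun this i)

theorem IsTor.mem_O {T : MultiRed K F k Fb} {m : ℕ} {f : F} (hf : IsTor T m f) : f ∈ T.O :=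
  T.mem_of_red_ne_zero (fun i => by rw [hf.red]; exact one_ne_zero)

theorem isTor_one (T : MultiRed K F k Fb) (m : ℕ) : IsTor T m (1 : F) :=
  ⟨fun P => by
    have : P.ord (1 : F) = 0 := by
      have := ord_algebraMap P (1 : K)
      rwa [map_one] at this
    rw [this]
    exact dvd_zero _, T.red_one⟩

theorem IsTor.mul {T : MultiRed K F k Fb} {x : F} {N : NodeData k Fb E} {a₀ : ℕ}
    (h : IsPreNodal T x N a₀) {m : ℕ} {f g : F} (hf : IsTor T m f) (hg : IsTor T m g) :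
    IsTor T m (f * g) :=
  ⟨fun P => by
    rw [P.ord_mul (hf.ne_zero h) (hg.ne_zero h)]
    exact dvd_add (hf.dvd P) (hg.dvd P), by
    rw [T.red_mul hf.mem_O hg.mem_O, hf.red, hg.red, one_mul]⟩

theorem IsTor.inv {T : MultiRed K F k Fb} {m : ℕ} {f : F} (hf : IsTor T m f) : IsTor T m f⁻¹ :=
  ⟨fun P => by
    rw [P.ord_inv]
    exact (dvd_neg).2 (hf.dvd P), by
    rw [T.red_inv, hf.red, inv_one]⟩

/-- **Existence of the invariant.** -/
theorem exists_isDelta {T : MultiRed K F k Fb} {x : F} {N : NodeData k Fb E} {a₀ : ℕ}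
    (h : IsPreNodal T x N a₀) {m : ℕ} (hm : (m : k) ≠ 0) {f : F} (hf : IsTor T m f) :
    ∃ δ : E → k, (∀ e, δ e ^ m = 1) ∧ IsDelta T x N m f δ := by
  have hm0 : 0 < m := Nat.pos_of_ne_zero (by rintro rfl; simp at hm)
  obtain ⟨D, hD, -⟩ := exists_divisor_of_dvd hm0 f hf.dvd
  obtain ⟨δ, a₁, hδ, hM⟩ := exists_delta h hm hD hf.red
  refine ⟨δ, hδ, fun y hy e => ?_⟩
  obtain ⟨a₂, ha₂⟩ := hy.exists_mem hm0 (hf.ne_zero h) hD
  have hmem : T.red y ∈ T.redSub (riemannRochSpace (bipole K x (max a₂ a₁) 0 + D)) :=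
    ⟨y, ha₂ _ (le_max_left _ _), hy.1, rfl⟩
  rw [hM _ _ (by simp)] at hmem
  exact (mem_gluedSub.mp hmem).2 e

/-- There is a section which is a unit at all the branches. -/
theorem exists_unit_section {T : MultiRed K F k Fb} {x : F} {N : NodeData k Fb E} {a₀ : ℕ}
    (h : IsPreNodal T x N a₀) {m : ℕ} (hm : (m : k) ≠ 0) {f : F} (hf : IsTor T m f) :
    ∃ y, IsSection T x m f y ∧ ∀ e, (0 ≤ (N.p₁ e).ord (T.red y (N.i₁ e)) ∧
      ev (N.p₁ e) (T.red y (N.i₁ e)) ≠ 0) ∧ (0 ≤ (N.p₂ e).ord (T.red y (N.i₂ e)) ∧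
      ev (N.p₂ e) (T.red y (N.i₂ e)) ≠ 0) := by
  obtain ⟨y, hy, hyS⟩ := exists_section h hm hf.dvd hf.red (Glued_brSet N)
    (fun i P hP => (Glued_ord_of_mem_brSet h.adapted i P hP).ge)
  refine ⟨y, hy, fun e => ⟨?_, ?_⟩⟩
  · have h1 := hyS _ _ (Glued_p₁_mem_brSet N e)
    exact ⟨h1.2.ge, (ev_ne_zero_iff _ h1.2.ge).2 h1⟩
  · have h1 := hyS _ _ (Glued_p₂_mem_brSet N e)
    exact ⟨h1.2.ge, (ev_ne_zero_iff _ h1.2.ge).2 h1⟩

/-- **Uniqueness of the invariant.** -/
theorem IsDelta.unique {T : MultiRed K F k Fb} {x : F} {N : NodeData k Fb E} {a₀ : ℕ}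
    (h : IsPreNodal T x N a₀) {m : ℕ} (hm : (m : k) ≠ 0) {f : F} (hf : IsTor T m f)
    {δ δ' : E → k} (hδ : IsDelta T x N m f δ) (hδ' : IsDelta T x N m f δ') : δ = δ' := by
  obtain ⟨y, hy, hu⟩ := exists_unit_section h hm hf
  funext e
  have h1 := hδ y hy e
  have h2 := hδ' y hy e
  rw [h1] at h2
  exact mul_right_cancel₀ (hu e).2.2 h2

/-- the invariant is determined by ONE section which is a unit at the second branch. -/
theorem IsDelta.eq_of_section {T : MultiRed K F k Fb} {x : F} {N : NodeData k Fb E} {m : ℕ} {f : F}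
    {δ : E → k} (hδ : IsDelta T x N m f δ) {y : F} (hy : IsSection T x m f y) {e : E} {d : k}
    (h2 : ev (N.p₂ e) (T.red y (N.i₂ e)) ≠ 0)
    (h12 : ev (N.p₁ e) (T.red y (N.i₁ e)) = d * ev (N.p₂ e) (T.red y (N.i₂ e))) : δ e = d := by
  have h1 := hδ y hy e
  rw [h12] at h1
  exact (mul_right_cancel₀ h2 h1).symm

theorem isSection_mul {T : MultiRed K F k Fb} {x : F} {m : ℕ} {f g y z : F}
    (hy : IsSection T x m f y) (hz : IsSection T x m g z) : IsSection T x m (f * g) (y * z) := by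
  obtain ⟨hyO, a, ha⟩ := hy
  obtain ⟨hzO, b, hb⟩ := hz
  refine ⟨T.O.mul_mem hyO hzO, a + b, ?_⟩
  have e : (y * z) ^ m * (f * g) = (y ^ m * f) * (z ^ m * g) := by rw [mul_pow]; ring
  rw [e, add_smul]
  exact Fermat.Agent.DR.Nodal.mul_mem_L ha hb

theorem isDelta_one {T : MultiRed K F k Fb} {x : F} {N : NodeData k Fb E} {a₀ : ℕ}
    (h : IsPreNodal T x N a₀) {m : ℕ} (hm : 0 < m) : IsDelta T x N m 1 1 :=
  fun _ hy e => glued_of_isSection_one h hm hy e

/-- **Multiplicativity.** -/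
theorem IsDelta.mul {T : MultiRed K F k Fb} {x : F} {N : NodeData k Fb E} {a₀ : ℕ}
    (h : IsPreNodal T x N a₀) {m : ℕ} (hm : (m : k) ≠ 0) {f g : F} (hf : IsTor T m f)
    (hg : IsTor T m g) {δ γ : E → k} (hδ : IsDelta T x N m f δ) (hγ : IsDelta T x N m g γ) :
    IsDelta T x N m (f * g) (δ * γ) := by
  obtain ⟨ε, -, hε⟩ := exists_isDelta h hm (hf.mul h hg)
  obtain ⟨y, hy, hyu⟩ := exists_unit_section h hm hf
  obtain ⟨z, hz, hzu⟩ := exists_unit_section h hm hg
  have key : ε = δ * γ := by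
    funext e
    have hred : T.red (y * z) = T.red y * T.red z := T.red_mul hy.1 hz.1
    refine hε.eq_of_section (isSection_mul hy hz) ?_ ?_
    · rw [hred, Pi.mul_apply, ev_mul _ (hyu e).2.1 (hzu e).2.1]
      exact mul_ne_zero (hyu e).2.2 (hzu e).2.2
    · rw [hred, Pi.mul_apply, Pi.mul_apply, Pi.mul_apply, ev_mul _ (hyu e).1.1 (hzu e).1.1,
        ev_mul _ (hyu e).2.1 (hzu e).2.1, hδ y hy e, hγ z hz e]
      ring
  rw [← key]
  exact hε

theorem IsDelta.inv {T : MultiRed K F k Fb} {x : F} {N : NodeData k Fb E} {a₀ : ℕ}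
    (h : IsPreNodal T x N a₀) {m : ℕ} (hm : (m : k) ≠ 0) {f : F} (hf : IsTor T m f)
    {δ : E → k} (hδ : IsDelta T x N m f δ) : IsDelta T x N m f⁻¹ δ⁻¹ := by
  have hm0 : 0 < m := Nat.pos_of_ne_zero (by rintro rfl; simp at hm)
  obtain ⟨ε, -, hε⟩ := exists_isDelta h hm hf.inv
  have h1 := hδ.mul h hm hf hf.inv hε
  rw [mul_inv_cancel₀ (hf.ne_zero h)] at h1
  have h2 := h1.unique h hm (isTor_one T m) (isDelta_one h hm0)
  have : ε = δ⁻¹ := by
    funext e
    have h3 : δ e * ε e = 1 := congrFun h2 e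
    rw [Pi.inv_apply]
    exact eq_inv_of_mul_eq_one_right h3
  rw [← this]
  exact hε

/-- an element of `Fb i` with `u ^ m = 1` is a constant. -/
theorem exists_const_of_pow_eq_one {Fb₀ : Type*} [Field Fb₀] [Algebra k Fb₀] {m : ℕ} (hm : 0 < m)
    {u : Fb₀} (hu : u ^ m = 1) : ∃ c : k, c ^ m = 1 ∧ u = algebraMap k Fb₀ c := by
  have hint : IsIntegral k u :=
    ⟨Polynomial.X ^ m - 1, Polynomial.monic_X_pow_sub_C (1 : k) hm.ne', by
      simp [hu]⟩
  have h1 := IsAlgClosed.degree_eq_one_of_irreducible k (minpoly.irreducible hint)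
  obtain ⟨c, hc⟩ := minpoly.mem_range_of_degree_eq_one k u h1
  refine ⟨c, ?_, hc.symm⟩
  apply (algebraMap k Fb₀).injective
  rw [map_pow, hc, hu, map_one]

/-- **The invariant of an `m`-th power is a coboundary.** -/
theorem isDelta_pow {T : MultiRed K F k Fb} {x : F} {N : NodeData k Fb E} {a₀ : ℕ}
    (h : IsPreNodal T x N a₀) {m : ℕ} (hm : 0 < m) {w : F} (hw : T.red (w ^ m) = 1) :
    ∃ c : ι → k, (∀ i, c i ^ m = 1) ∧
      IsDelta T x N m (w ^ m) (fun e => c (N.i₂ e) * (c (N.i₁ e))⁻¹) := by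
  have h1 : ∀ i, (T.red w i) ^ m = 1 := fun i => by
    have := congrFun hw i
    rwa [T.red_pow] at this
  choose c hc hcw using fun i => exists_const_of_pow_eq_one (k := k) hm (h1 i)
  have hc0 : ∀ i, c i ≠ 0 := fun i h0 => by
    have := hc i
    rw [h0, zero_pow hm.ne'] at this
    exact zero_ne_one this
  have hwO : w ∈ T.O := T.mem_of_red_ne_zero (fun i h0 => by
    have := h1 i
    rw [h0, zero_pow hm.ne'] at this
    exact zero_ne_one this)
  refine ⟨c, hc, fun y hy e => ?_⟩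
  have hsec : IsSection T x m 1 (y * w) := by
    obtain ⟨hyO, a, ha⟩ := hy
    refine ⟨T.O.mul_mem hyO hwO, a, ?_⟩
    rw [mul_one, mul_pow]
    exact ha
  have hgl := glued_of_isSection_one h hm hsec e
  have hred : ∀ i, T.red (y * w) i = c i • T.red y i := fun i => by
    rw [T.red_mul hy.1 hwO, Pi.mul_apply, hcw i, Algebra.smul_def, mul_comm]
  have htor : IsTor T m (w ^ m) := ⟨fun P => by
    rw [ord_pow]
    exact dvd_mul_right _ _, hw⟩
  have hreg₁ : 0 ≤ (N.p₁ e).ord (T.red y (N.i₁ e)) :=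
    hy.regular h hm hw _ _ (h.unit₁ e).ge
  have hreg₂ : 0 ≤ (N.p₂ e).ord (T.red y (N.i₂ e)) :=
    hy.regular h hm hw _ _ (h.unit₂ e).ge
  rw [hred, hred, ev_smul _ _ hreg₁, ev_smul _ _ hreg₂, Pi.one_apply, one_mul] at hgl
  have h0 := hc0 (N.i₁ e)
  field_simp
  linear_combination hgl

/-- **A class whose invariant is a coboundary is trivial.** -/
theorem isPow_of_isDelta {T : MultiRed K F k Fb} {x : F} {N : NodeData k Fb E} {a₀ : ℕ}
    (h : IsPreNodal T x N a₀) {m : ℕ} (hm : (m : k) ≠ 0) {f : F} (hf : IsTor T m f)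
    {δ : E → k} (hδ : IsDelta T x N m f δ) (c : ι → k) (hc : ∀ i, c i ≠ 0)
    (hcob : ∀ e, δ e * c (N.i₂ e) = c (N.i₁ e)) : ∃ w : F, f = w ^ m := by
  obtain ⟨y, hy, hu⟩ := exists_unit_section h hm hf
  refine isPow_of_sections h hm hf.dvd hf.red c hc (fun e => ⟨y, hy, (hu e).2.2, ?_⟩)
  rw [hδ y hy e, ← hcob e]
  ring

end Fermat.Agent.S41.Toric
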